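/-
helper53 (P-ORD, HOPF LEMMA, Mathlib only).

`R` a domain in which the odd prime `p` is a "uniformiser" (`p ≠ 0`, every element is a unit or
divisible by `p`, and `⋂ pⁿ R = 0`), `Z` a commutative group killed by `p`, `H` an `R`-algebra
of `R`-valued functions on `Z` which is closed under the comultiplication
`h ↦ ((z, z') ↦ h (z + z'))` and contains a nonconstant function.  Then some function of `H`
is NOT constant modulo `p` (`hopf_exists_unit`), and if `Z` has exactly `p` elements then `H`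
consists of ALL functions (`hopf_eq_top`): there is no "connected" Hopf order in
`Maps(ℤ/p, R)` when `p` is odd and unramified.

Proof of `hopf_exists_unit`: if all functions are constant mod `p`, then the augmentation ideal
`I = {h ∈ H | h 0 = 0}` has values in `p R`; if `I` has values in `pⁿ R` (`n ≥ 1`) then every
`h ∈ I` satisfies `h (x + y) = h x + h y + C (x, y)` with `C ∈ I ⊗ I`, whence
`h (m z) ≡ m h z + (m (m - 1) / 2) C (z, z)` modulo `p ^ (2 n + 1)`; for `m = p` (odd!) this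
gives `p h z ≡ 0`, so `I` has values in `p ^ (2 n) R`.  By induction `I` has values in
`⋂ pⁿ R = 0`, a contradiction.
-/
import Mathlib

set_option autoImplicit false
set_option linter.style.haveILetI false

namespace Fermat.Agent.H53

section HopfOrder

variable {R : Type*} [CommRing R] {Z : Type*} [AddCommGroup Z]

/-- Closed under the comultiplication of functions on a group. -/
def ComulClosed (H : Subalgebra R (Z → R)) : Prop :=
  ∀ h ∈ H, ∃ (n : ℕ) (a b : Fin n → Z → R), (∀ i, a i ∈ H) ∧ (∀ i, b i ∈ H) ∧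
    ∀ z z' : Z, h (z + z') = ∑ i, a i z * b i z'

/-- Subtracting the value at `0`. -/
theorem sub_const_mem (H : Subalgebra R (Z → R)) {h : Z → R} (hh : h ∈ H) :
    (fun z => h z - h 0) ∈ H := by
  have h1 : (fun z => h z - h 0) = h - algebraMap R (Z → R) (h 0) := by
    funext z
    simp [Pi.algebraMap_apply]
  rw [h1]
  exact H.sub_mem hh (H.algebraMap_mem _)

/-- The normalised comultiplication on the augmentation ideal. -/
theorem ComulClosed.exists_cross {H : Subalgebra R (Z → R)} (hH : ComulClosed H) {h : Z → R}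
    (hh : h ∈ H) (h0 : h 0 = 0) :
    ∃ (n : ℕ) (a b : Fin n → Z → R), (∀ i, a i ∈ H) ∧ (∀ i, b i ∈ H) ∧ (∀ i, a i 0 = 0) ∧
      (∀ i, b i 0 = 0) ∧ ∀ z z' : Z, h (z + z') = h z + h z' + ∑ i, a i z * b i z' := by
  obtain ⟨n, a, b, ha, hb, hab⟩ := hH h hh
  refine ⟨n, fun i z => a i z - a i 0, fun i z => b i z - b i 0,
    fun i => sub_const_mem H (ha i), fun i => sub_const_mem H (hb i), fun i => sub_self _,
    fun i => sub_self _, fun z z' => ?_⟩
  have e1 := hab z z'
  have e2 := hab z 0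
  have e3 := hab 0 z'
  have e4 := hab 0 0
  rw [add_zero] at e2 e4
  rw [zero_add] at e3
  have e5 : ∑ i, (a i z - a i 0) * (b i z' - b i 0)
      = ∑ i, a i z * b i z' - ∑ i, a i z * b i 0 - ∑ i, a i 0 * b i z' + ∑ i, a i 0 * b i 0 := by
    rw [← Finset.sum_sub_distrib, ← Finset.sum_sub_distrib, ← Finset.sum_add_distrib]
    refine Finset.sum_congr rfl fun i _ => ?_
    ring
  rw [e5, ← e1, ← e2, ← e3, ← e4, h0]
  ring

/-- Translation invariance. -/
theorem ComulClosed.translate_mem {H : Subalgebra R (Z → R)} (hH : ComulClosed H) {h : Z → R}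
    (hh : h ∈ H) (w : Z) : (fun z => h (z + w)) ∈ H := by
  obtain ⟨n, a, b, ha, -, hab⟩ := hH h hh
  have h1 : (fun z => h (z + w)) = ∑ i, b i w • a i := by
    funext z
    rw [hab z w, Finset.sum_apply]
    refine Finset.sum_congr rfl fun i _ => ?_
    rw [Pi.smul_apply, smul_eq_mul, mul_comm]
  rw [h1]
  exact H.sum_mem fun i _ => H.smul_mem (ha i) _

/-- Invariance under multiplication by `m`. -/
theorem ComulClosed.nsmul_mem {H : Subalgebra R (Z → R)} (hH : ComulClosed H) (m : ℕ) :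
    ∀ h ∈ H, (fun z => h (m • z)) ∈ H := by
  induction m with
  | zero =>
    intro h _
    have h1 : (fun z : Z => h (0 • z)) = algebraMap R (Z → R) (h 0) := by
      funext z
      simp [Pi.algebraMap_apply]
    rw [h1]
    exact H.algebraMap_mem _
  | succ m ih =>
    intro h hh
    obtain ⟨n, a, b, ha, hb, hab⟩ := hH h hh
    have h1 : (fun z : Z => h ((m + 1) • z)) = ∑ i, (fun z => a i (m • z)) * b i := by
      funext z
      rw [succ_nsmul, hab, Finset.sum_apply]
      rfl
    rw [h1]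
    exact H.sum_mem fun i _ => H.mul_mem (ih _ (ha i)) (hb i)

variable (p : ℕ)

/-- The augmentation ideal has values in `pⁿ R`. -/
def AugDvd (H : Subalgebra R (Z → R)) (n : ℕ) : Prop :=
  ∀ g ∈ H, g 0 = 0 → ∀ z : Z, (p : R) ^ n ∣ g z

variable {p}

/-- Additivity modulo `p ^ (2 n)`. -/
theorem AugDvd.additive {H : Subalgebra R (Z → R)} (hH : ComulClosed H) {n : ℕ}
    (hP : AugDvd p H n) {g : Z → R} (hg : g ∈ H) (g0 : g 0 = 0) (x y : Z) :
    (p : R) ^ (2 * n) ∣ g (x + y) - (g x + g y) := by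
  obtain ⟨k, a, b, ha, hb, ha0, hb0, hab⟩ := hH.exists_cross hg g0
  rw [hab x y, add_sub_cancel_left]
  refine Finset.dvd_sum fun i _ => ?_
  rw [two_mul, pow_add]
  exact mul_dvd_mul (hP _ (ha i) (ha0 i) x) (hP _ (hb i) (hb0 i) y)

/-- `g (m z) ≡ m g z` modulo `p ^ (2 n)`. -/
theorem AugDvd.nsmul_congr {H : Subalgebra R (Z → R)} (hH : ComulClosed H) {n : ℕ}
    (hP : AugDvd p H n) {g : Z → R} (hg : g ∈ H) (g0 : g 0 = 0) (z : Z) (m : ℕ) :
    (p : R) ^ (2 * n) ∣ g (m • z) - m * g z := by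
  induction m with
  | zero => simp [g0]
  | succ m ih =>
    have h1 := hP.additive hH hg g0 (m • z) z
    have h2 : g ((m + 1) • z) - ((m + 1 : ℕ) : R) * g z
        = (g (m • z + z) - (g (m • z) + g z)) + (g (m • z) - m * g z) := by
      rw [succ_nsmul]
      push_cast
      ring
    rw [h2]
    exact dvd_add h1 ih

end HopfOrder

section Main

variable {R : Type*} [CommRing R] [IsDomain R] {Z : Type*} [AddCommGroup Z] {p : ℕ}

/-- **Doubling step**: if the augmentation ideal has values in `pⁿ R`, `n ≥ 1`, `p` odd, then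
it has values in `p ^ (2 n) R`. -/
theorem AugDvd.double (hp : p.Prime) (hp2 : p ≠ 2) (hp0 : (p : R) ≠ 0)
    (hZ : ∀ z : Z, p • z = 0) {H : Subalgebra R (Z → R)} (hH : ComulClosed H) {n : ℕ}
    (hn : 1 ≤ n) (hP : AugDvd p H n) : AugDvd p H (2 * n) := by
  classical
  intro h hh h0 z
  obtain ⟨k, a, b, ha, hb, ha0, hb0, hab⟩ := hH.exists_cross hh h0
  -- the cross term
  set C : Z → Z → R := fun x y => ∑ i, a i x * b i y with hC
  have hCdvd : ∀ x y, (p : R) ^ (2 * n) ∣ C x y := by
    intro x y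
    refine Finset.dvd_sum fun i _ => ?_
    rw [two_mul, pow_add]
    exact mul_dvd_mul (hP _ (ha i) (ha0 i) x) (hP _ (hb i) (hb0 i) y)
  have hCm : ∀ m : ℕ, (p : R) ^ (2 * n + 1) ∣ C (m • z) z - m * C z z := by
    intro m
    have e : C (m • z) z - m * C z z = ∑ i, (a i (m • z) - m * a i z) * b i z := by
      simp only [hC, Finset.mul_sum, ← Finset.sum_sub_distrib]
      refine Finset.sum_congr rfl fun i _ => ?_
      ring
    rw [e]
    refine Finset.dvd_sum fun i _ => ?_
    have h1 := hP.nsmul_congr hH (ha i) (ha0 i) z m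
    have h2 := hP _ (hb i) (hb0 i) z
    have h3 : (p : R) ^ (2 * n + 1) ∣ (p : R) ^ (2 * n) * (p : R) ^ n := by
      rw [← pow_add]
      exact pow_dvd_pow _ (by omega)
    exact h3.trans (mul_dvd_mul h1 h2)
  -- the main congruence
  have key : ∀ m : ℕ, (p : R) ^ (2 * n + 1) ∣
      h (m • z) - (m * h z + ((∑ j ∈ Finset.range m, j : ℕ) : R) * C z z) := by
    intro m
    induction m with
    | zero => simp [h0]
    | succ m ih =>
      have e : h ((m + 1) • z) - (((m + 1 : ℕ) : R) * h z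
            + ((∑ j ∈ Finset.range (m + 1), j : ℕ) : R) * C z z)
          = (h (m • z) - (m * h z + ((∑ j ∈ Finset.range m, j : ℕ) : R) * C z z))
            + (C (m • z) z - m * C z z) := by
        rw [succ_nsmul, hab (m • z) z, Finset.sum_range_succ]
        push_cast
        ring
      rw [e]
      exact dvd_add ih (hCm m)
  have hkp := key p
  rw [hZ z, h0, zero_sub, dvd_neg] at hkp
  -- the triangular number is divisible by `p`
  have hT : p ∣ ∑ j ∈ Finset.range p, j := by
    have h1 : p ∣ (∑ j ∈ Finset.range p, j) * 2 := by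
      rw [Finset.sum_range_id_mul_two]
      exact dvd_mul_right _ _
    have hcop : Nat.Coprime p 2 := (Nat.coprime_primes hp Nat.prime_two).mpr hp2
    exact hcop.dvd_of_dvd_mul_right h1
  have hT' : (p : R) ^ (2 * n + 1) ∣ ((∑ j ∈ Finset.range p, j : ℕ) : R) * C z z := by
    obtain ⟨c, hc⟩ := hT
    rw [hc, pow_succ']
    push_cast
    rw [mul_assoc]
    exact mul_dvd_mul_left _ ((hCdvd z z).mul_left _)
  have h4 : (p : R) ^ (2 * n + 1) ∣ (p : R) * h z := (dvd_add_left hT').mp hkp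
  rw [pow_succ'] at h4
  exact (mul_dvd_mul_iff_left hp0).mp h4

/-- **HOPF LEMMA (non-connectedness).**  Some function of `H` is not constant modulo `p`. -/
theorem hopf_exists_unit (hp : p.Prime) (hp2 : p ≠ 2) (hp0 : (p : R) ≠ 0)
    (hloc : ∀ r : R, IsUnit r ∨ (p : R) ∣ r)
    (hsep : ∀ r : R, (∀ n : ℕ, (p : R) ^ n ∣ r) → r = 0)
    (hZ : ∀ z : Z, p • z = 0) (H : Subalgebra R (Z → R)) (hH : ComulClosed H)
    (hne : ∃ h ∈ H, ∃ z : Z, h z ≠ h 0) :
    ∃ h ∈ H, ∃ z : Z, IsUnit (h z - h 0) := by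
  by_contra hcon
  push Not at hcon
  -- the augmentation ideal has values in `p R`
  have hP1 : AugDvd p H 1 := by
    intro g hg g0 z
    have h1 := hcon g hg z
    rw [g0, sub_zero] at h1
    rw [pow_one]
    exact (hloc (g z)).resolve_left h1
  -- hence in `pⁿ R` for all `n ≥ 1`
  have hPn : ∀ n : ℕ, AugDvd p H (n + 1) := by
    intro n
    induction n with
    | zero => exact hP1
    | succ n ih =>
      have h2 := ih.double hp hp2 hp0 hZ hH (by omega)
      intro g hg g0 z
      exact (pow_dvd_pow _ (by omega)).trans (h2 g hg g0 z)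
  obtain ⟨h, hh, z, hz⟩ := hne
  apply hz
  have h1 : h z - h 0 = 0 := by
    refine hsep _ fun n => ?_
    have h2 := hPn n _ (sub_const_mem H hh) (sub_self _) z
    exact (pow_dvd_pow _ (Nat.le_succ n)).trans h2
  exact sub_eq_zero.mp h1

/-- **HOPF LEMMA.**  A Hopf order in `Maps(Z, R)`, `Z` of odd prime order `p`, `p` a uniformiser
of `R`, consists of all functions. -/
theorem hopf_eq_top [Finite Z] (hp : p.Prime) (hp2 : p ≠ 2) (hp0 : (p : R) ≠ 0)
    (hloc : ∀ r : R, IsUnit r ∨ (p : R) ∣ r)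
    (hsep : ∀ r : R, (∀ n : ℕ, (p : R) ^ n ∣ r) → r = 0)
    (hcard : Nat.card Z = p) (H : Subalgebra R (Z → R)) (hH : ComulClosed H)
    (hne : ∃ h ∈ H, ∃ z : Z, h z ≠ h 0) : H = ⊤ := by
  classical
  haveI : Fintype Z := Fintype.ofFinite Z
  have hZ : ∀ z : Z, p • z = 0 := by
    intro z
    rw [← hcard]
    exact card_nsmul_eq_zero'
  obtain ⟨g, hg, z₀, hu⟩ := hopf_exists_unit hp hp2 hp0 hloc hsep hZ H hH hne
  -- normalise `g 0 = 0`
  obtain ⟨g', hg', hg'0, hu'⟩ : ∃ g' ∈ H, g' 0 = 0 ∧ IsUnit (g' z₀) :=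
    ⟨fun z => g z - g 0, sub_const_mem H hg, sub_self _, hu⟩
  have hz₀ : z₀ ≠ 0 := by
    rintro rfl
    rw [hg'0] at hu'
    exact not_isUnit_zero hu'
  -- for every `z ≠ 0` a function vanishing at `0` with unit value at `z`
  have hex : ∀ z : Z, z ≠ 0 → ∃ f ∈ H, f 0 = 0 ∧ IsUnit (f z) := by
    intro z hz
    -- `z` generates `Z`
    have hgen : ∀ w : Z, w ∈ AddSubgroup.zmultiples z := by
      intro w
      haveI : Fact p.Prime := ⟨hp⟩
      rw [zmultiples_eq_top_of_prime_card hcard hz]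
      exact AddSubgroup.mem_top w
    obtain ⟨k, hk⟩ := AddSubgroup.mem_zmultiples_iff.mp (hgen z₀)
    -- reduce `k` to a natural number
    obtain ⟨m, hm⟩ : ∃ m : ℕ, m • z = z₀ := by
      refine ⟨(k % (p : ℤ)).toNat, ?_⟩
      have hppos : (0 : ℤ) < p := by exact_mod_cast hp.pos
      have h1 : ((k % (p : ℤ)).toNat : ℤ) = k % p := Int.toNat_of_nonneg (Int.emod_nonneg _ hppos.ne')
      have h2 : ((k % (p : ℤ)).toNat : ℤ) • z = z₀ := by
        rw [h1, ← hk]
        have h3 : k = k % p + p * (k / p) := (Int.emod_add_mul_ediv k p).symm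
        conv_rhs => rw [h3, add_smul, mul_smul]
        have h4 : (p : ℤ) • ((k / p) • z) = 0 := by
          rw [natCast_zsmul]
          exact hZ _
        rw [h4, add_zero]
      rwa [natCast_zsmul] at h2
    refine ⟨fun x => g' (m • x), hH.nsmul_mem m g' hg', ?_, ?_⟩
    · show g' (m • (0 : Z)) = 0
      rw [smul_zero, hg'0]
    · show IsUnit (g' (m • z))
      rw [hm]
      exact hu'
  choose! f hfH hf0 hfu using hex
  -- the indicator function of `0`
  obtain ⟨δ, hδdef⟩ : ∃ δ : Z → R, δ = ∏ w ∈ Finset.univ.filter (fun w : Z => w ≠ 0),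
      (1 - Ring.inverse (f w w) • f w) := ⟨_, rfl⟩
  have hδH : δ ∈ H := by
    rw [hδdef]
    exact Subalgebra.prod_mem _ fun w hw =>
      H.sub_mem H.one_mem (H.smul_mem (hfH w (Finset.mem_filter.mp hw).2) _)
  have hδ0 : δ 0 = 1 := by
    rw [hδdef, Finset.prod_apply]
    refine Finset.prod_eq_one fun w hw => ?_
    rw [Pi.sub_apply, Pi.one_apply, Pi.smul_apply, hf0 w (Finset.mem_filter.mp hw).2, smul_zero,
      sub_zero]
  have hδz : ∀ z : Z, z ≠ 0 → δ z = 0 := by
    intro z hz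
    rw [hδdef, Finset.prod_apply]
    refine Finset.prod_eq_zero (i := z) (Finset.mem_filter.mpr ⟨Finset.mem_univ _, hz⟩) ?_
    rw [Pi.sub_apply, Pi.one_apply, Pi.smul_apply, smul_eq_mul,
      Ring.inverse_mul_cancel _ (hfu z hz), sub_self]
  rw [eq_top_iff]
  intro φ _
  have hφ : φ = ∑ w, φ w • (fun z => δ (z + (-w))) := by
    funext z
    rw [Finset.sum_apply, Finset.sum_eq_single z]
    · rw [Pi.smul_apply, add_neg_cancel, hδ0, smul_eq_mul, mul_one]
    · intro w _ hwz
      have hne' : z + -w ≠ 0 := by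
        intro h0
        apply hwz
        rw [add_neg_eq_zero] at h0
        exact h0.symm
      rw [Pi.smul_apply, hδz _ hne', smul_zero]
    · intro hz
      exact absurd (Finset.mem_univ z) hz
  rw [hφ]
  exact H.sum_mem fun w _ => H.smul_mem (hH.translate_mem hδH (-w)) _

end Main

section DVR

variable {R : Type*} [CommRing R] [IsDomain R] [IsDiscreteValuationRing R]
  {Z : Type*} [AddCommGroup Z] {p : ℕ}

/-- In a discrete valuation ring with uniformiser `p`, every element is a unit or divisible by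
`p`. -/
theorem dvr_unit_or_dvd (hpR : Irreducible (p : R)) (r : R) : IsUnit r ∨ (p : R) ∣ r := by
  by_cases hr : IsUnit r
  · exact Or.inl hr
  · right
    have h1 : r ∈ IsLocalRing.maximalIdeal R := (IsLocalRing.mem_maximalIdeal r).mpr hr
    rw [hpR.maximalIdeal_eq] at h1
    exact Ideal.mem_span_singleton.mp h1

/-- In a discrete valuation ring with uniformiser `p`, `⋂ pⁿ R = 0`. -/
theorem dvr_eq_zero_of_forall_dvd (hpR : Irreducible (p : R)) (r : R)
    (hr : ∀ n : ℕ, (p : R) ^ n ∣ r) : r = 0 := by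
  by_contra hr0
  obtain ⟨n, u, hu⟩ := IsDiscreteValuationRing.eq_unit_mul_pow_irreducible hr0 hpR
  obtain ⟨c, hc⟩ := hr (n + 1)
  rw [hu, pow_succ, mul_assoc] at hc
  have h1 : (u : R) * (p : R) ^ n = (p : R) ^ n * ((p : R) * c) := hc
  have h2 : (p : R) ^ n * (u : R) = (p : R) ^ n * ((p : R) * c) := by rw [mul_comm, h1]
  have h3 : (u : R) = (p : R) * c := mul_left_cancel₀ (pow_ne_zero n hpR.ne_zero) h2
  have h4 : IsUnit ((p : R) * c) := h3 ▸ u.isUnit
  exact hpR.not_isUnit (isUnit_of_mul_isUnit_left h4)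

/-- **HOPF LEMMA (non-connectedness)** over a discrete valuation ring with uniformiser `p`. -/
theorem hopf_exists_unit_dvr (hp : p.Prime) (hp2 : p ≠ 2) (hpR : Irreducible (p : R))
    (hZ : ∀ z : Z, p • z = 0) (H : Subalgebra R (Z → R)) (hH : ComulClosed H)
    (hne : ∃ h ∈ H, ∃ z : Z, h z ≠ h 0) :
    ∃ h ∈ H, ∃ z : Z, IsUnit (h z - h 0) :=
  hopf_exists_unit hp hp2 hpR.ne_zero (dvr_unit_or_dvd hpR) (dvr_eq_zero_of_forall_dvd hpR)
    hZ H hH hne

/-- **HOPF LEMMA** over a discrete valuation ring with uniformiser `p`: every Hopf order in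
`Maps(Z, R)`, `#Z = p` odd, is `Maps(Z, R)`. -/
theorem hopf_eq_top_dvr [Finite Z] (hp : p.Prime) (hp2 : p ≠ 2) (hpR : Irreducible (p : R))
    (hcard : Nat.card Z = p) (H : Subalgebra R (Z → R)) (hH : ComulClosed H)
    (hne : ∃ h ∈ H, ∃ z : Z, h z ≠ h 0) : H = ⊤ :=
  hopf_eq_top hp hp2 hpR.ne_zero (dvr_unit_or_dvd hpR) (dvr_eq_zero_of_forall_dvd hpR)
    hcard H hH hne

end DVR

end Fermat.Agent.H53
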