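/-
helper53 (P-ORD, adapter for blueprint #489 (3)(b)): the unramified integers
`R = unrInt A = A ∩ ℚ̄^I` at a place `A` of `ℚ̄` over `ℓ` form a discrete valuation ring with
uniformiser `ℓ`, and the Hopf lemma for unramified Hopf orders (P-FF language) with trivial
inertia action.

* `unr_trace_trick` : scalar trace trick (from `PlaceUnrBasis`);
* `unrInt_dvd_of_nonunit` : a nonunit of `A` in `unrInt A` is `ℓ` times an element of `unrInt A`;
* `unrInt_isUnit_or_dvd`, `unrInt_eq_zero_of_forall_dvd`, `unrInt_irreducible`,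
  `unrInt_isDiscreteValuationRing`;
* `unrHopf_exists_unit` : an unramified Hopf order on a nontrivial group killed by `ℓ` (odd) on
  which inertia acts trivially contains a function `h` with `h z - h 0` a unit of `A`.
-/
import Fermat.Agent.H53.ORD.HopfLemma
import Fermat.Agent.H16.FFDTrace
import Fermat.Agent.H68.FFD.PlaceBasics

set_option autoImplicit false
set_option linter.unusedVariables false
set_option linter.unusedSectionVars false
set_option linter.style.haveILetI false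

noncomputable section

namespace Fermat.Agent.H53

open Fermat.Agent.H10.FF Fermat.Agent.H72.FF Fermat.Agent.H68.FFD

section Trace

variable {A : ValuationSubring Qb}

theorem unr_inv_apply (σ : GQ) (a : Qb) : σ⁻¹ (σ a) = a := by
  change (σ⁻¹ * σ) a = a
  rw [inv_mul_cancel]
  rfl

theorem unr_apply_inv (σ : GQ) (a : Qb) : σ (σ⁻¹ a) = a := by
  change (σ * σ⁻¹) a = a
  rw [mul_inv_cancel]
  rfl

/-- The decomposition group preserves the nonunits. -/
theorem unr_apply_mem_nonunits {σ : GQ} (hσ : σ ∈ A.decompositionSubgroup ℚ) {x : Qb}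
    (hx : x ∈ A.nonunits) : σ x ∈ A.nonunits := by
  rw [ValuationSubring.mem_nonunits_iff_or] at hx ⊢
  rcases hx with hx | hx
  · left
    rw [hx, map_zero]
  · right
    intro h
    apply hx
    have h1 := Fermat.Agent.H8.apply_mem_of_mem_decomposition A (inv_mem hσ) h
    rwa [← map_inv₀, unr_inv_apply] at h1

/-- The nonunits are closed under addition. -/
theorem unr_nonunits_add {x y : Qb} (hx : x ∈ A.nonunits) (hy : y ∈ A.nonunits) :
    x + y ∈ A.nonunits := by
  rw [ValuationSubring.mem_nonunits_iff] at hx hy ⊢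
  exact lt_of_le_of_lt (Valuation.map_add _ _ _) (max_lt hx hy)

theorem unr_nonunits_zero : (0 : Qb) ∈ A.nonunits := by
  rw [ValuationSubring.mem_nonunits_iff, map_zero]
  exact zero_lt_one

theorem unr_nonunits_neg {x : Qb} (hx : x ∈ A.nonunits) : -x ∈ A.nonunits := by
  rw [ValuationSubring.mem_nonunits_iff] at hx ⊢
  rwa [Valuation.map_neg]

theorem unr_nonunits_sub {x y : Qb} (hx : x ∈ A.nonunits) (hy : y ∈ A.nonunits) :
    x - y ∈ A.nonunits := by
  rw [sub_eq_add_neg]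
  exact unr_nonunits_add hx (unr_nonunits_neg hy)

theorem unr_nonunits_mul_left {a x : Qb} (ha : a ∈ A) (hx : x ∈ A.nonunits) :
    a * x ∈ A.nonunits := by
  rw [ValuationSubring.mem_nonunits_iff] at hx ⊢
  rw [map_mul]
  calc A.valuation a * A.valuation x ≤ 1 * A.valuation x :=
        mul_le_mul_left ((A.valuation_le_one_iff a).2 ha) _
    _ < 1 := by rw [one_mul]; exact hx

theorem unr_nonunits_sum {ι : Type} (s : Finset ι) (f : ι → Qb)
    (h : ∀ i ∈ s, f i ∈ A.nonunits) : ∑ i ∈ s, f i ∈ A.nonunits := by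
  classical
  induction s using Finset.induction_on with
  | empty => rw [Finset.sum_empty]; exact unr_nonunits_zero
  | insert a s ha ih =>
    rw [Finset.sum_insert ha]
    exact unr_nonunits_add (h a (Finset.mem_insert_self a s))
      (ih fun i hi => h i (Finset.mem_insert_of_mem hi))

theorem unr_nonunits_mem {x : Qb} (hx : x ∈ A.nonunits) : x ∈ A := by
  rw [ValuationSubring.mem_nonunits_iff] at hx
  exact (A.valuation_le_one_iff x).1 hx.le

/-- The orbit of an algebraic number is finite. -/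
theorem unr_orbit_finite (x : Qb) : (Set.range fun σ : GQ => σ x).Finite := by
  refine (Polynomial.rootSet_finite (minpoly ℚ x) Qb).subset ?_
  rintro _ ⟨σ, rfl⟩
  have hint : IsIntegral ℚ x := ((AlgebraicClosure.isAlgebraic ℚ).isAlgebraic x).isIntegral
  rw [Polynomial.mem_rootSet]
  refine ⟨minpoly.ne_zero hint, ?_⟩
  show Polynomial.aeval (σ x) (minpoly ℚ x) = 0
  rw [Polynomial.aeval_algHom_apply, minpoly.aeval, map_zero]

/-- **Scalar trace trick.** An inertia-fixed number is an `A`-linear combination of numbers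
fixed by the decomposition group, which are integral (resp. in the maximal ideal) if the given
number is. -/
theorem unr_trace_trick (hPUB : PlaceUnrBasis A) (x : Qb)
    (hxI : ∀ σ ∈ A.inertiaSubgroupIn ℚ, σ x = x) :
    ∃ (m : ℕ) (c y : Fin m → Qb), (∀ j, c j ∈ A) ∧
      (∀ j, ∀ σ ∈ A.decompositionSubgroup ℚ, σ (y j) = y j) ∧
      (x ∈ A → ∀ j, y j ∈ A) ∧
      (x ∈ A.nonunits → ∀ j, y j ∈ A.nonunits) ∧
      x = ∑ j, c j * y j := by
  classical
  -- the stabiliser of `x` in the decomposition group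
  let S : Subgroup GQ :=
    { carrier := {σ | σ ∈ A.decompositionSubgroup ℚ ∧ σ x = x}
      one_mem' := ⟨one_mem _, rfl⟩
      mul_mem' := fun {a b} ha hb => ⟨mul_mem ha.1 hb.1, by
        show a (b x) = x
        rw [hb.2, ha.2]⟩
      inv_mem' := fun {a} ha => ⟨inv_mem ha.1, by
        have h := unr_inv_apply a x
        rwa [ha.2] at h⟩ }
  have hS : ∀ σ, σ ∈ S ↔ σ ∈ A.decompositionSubgroup ℚ ∧ σ x = x := fun σ => Iff.rfl
  have hIS : A.inertiaSubgroupIn ℚ ≤ S := fun σ hσ =>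
    ⟨Fermat.Agent.H8.mem_decomposition_of_mem_inertiaSubgroupIn A hσ, hxI σ hσ⟩
  have hSD : S ≤ A.decompositionSubgroup ℚ := fun σ hσ => hσ.1
  have hE : ∃ E : IntermediateField ℚ Qb, FiniteDimensional ℚ E ∧
      ∀ σ ∈ A.decompositionSubgroup ℚ, (∀ e ∈ E, σ e = e) → σ ∈ S := by
    refine ⟨IntermediateField.adjoin ℚ {x}, ?_, ?_⟩
    · exact IntermediateField.finiteDimensional_adjoin
        (fun a _ => ((AlgebraicClosure.isAlgebraic ℚ).isAlgebraic a).isIntegral)
    · intro σ hσD hσ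
      exact ⟨hσD, hσ _ (IntermediateField.subset_adjoin ℚ _ (Set.mem_singleton x))⟩
  obtain ⟨n, θ, θ', hθA, hθS, hsum⟩ := hPUB S hIS hSD hE
  -- the orbit of `x` under the decomposition group
  set O : Set Qb := {x' | ∃ σ ∈ A.decompositionSubgroup ℚ, σ x = x'} with hO
  have hOfin : O.Finite := by
    refine (unr_orbit_finite x).subset ?_
    rintro x' ⟨σ, -, rfl⟩
    exact ⟨σ, rfl⟩
  -- the coefficient functions on the orbit
  let φ : Fin n → Qb → Qb := fun j x' =>
    if h : ∃ σ ∈ A.decompositionSubgroup ℚ, σ x = x' then h.choose (θ j) else 0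
  have hφ : ∀ j σ, σ ∈ A.decompositionSubgroup ℚ → φ j (σ x) = σ (θ j) := by
    intro j σ hσ
    have h : ∃ σ' ∈ A.decompositionSubgroup ℚ, σ' x = σ x := ⟨σ, hσ, rfl⟩
    show (if h : ∃ σ' ∈ A.decompositionSubgroup ℚ, σ' x = σ x
      then h.choose (θ j) else 0) = σ (θ j)
    rw [dif_pos h]
    obtain ⟨h1, h2⟩ := h.choose_spec
    set σ' := h.choose with hσ'
    have hmem : σ'⁻¹ * σ ∈ S := by
      refine ⟨mul_mem (inv_mem h1) hσ, ?_⟩
      show σ'⁻¹ (σ x) = x
      rw [← h2, unr_inv_apply]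
    have h3 := (hθS j _ hmem).1
    have h4 : (σ'⁻¹ * σ) (θ j) = σ'⁻¹ (σ (θ j)) := rfl
    rw [h4] at h3
    have h5 := congrArg σ' h3
    rw [unr_apply_inv] at h5
    exact h5.symm
  -- the fixed elements
  let y : Fin n → Qb := fun j => ∑ x' ∈ hOfin.toFinset, φ j x' * x'
  have hy : ∀ j, y j = ∑ x' ∈ hOfin.toFinset, φ j x' * x' := fun j => rfl
  refine ⟨n, θ', y, fun j => (hθA j).2, ?_, ?_, ?_, ?_⟩
  · -- invariance
    intro j τ hτ
    rw [hy, map_sum]
    refine Finset.sum_bij (fun x' _ => τ x') ?_ ?_ ?_ ?_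
    · intro x' hx'
      rw [Set.Finite.mem_toFinset] at hx' ⊢
      obtain ⟨σ, hσ, rfl⟩ := hx'
      exact ⟨τ * σ, mul_mem hτ hσ, rfl⟩
    · intro a _ b _ hab
      exact τ.injective hab
    · intro x'' hx''
      rw [Set.Finite.mem_toFinset] at hx''
      obtain ⟨σ, hσ, rfl⟩ := hx''
      refine ⟨(τ⁻¹ * σ) x, ?_, ?_⟩
      · rw [Set.Finite.mem_toFinset]
        exact ⟨τ⁻¹ * σ, mul_mem (inv_mem hτ) hσ, rfl⟩
      · show τ (τ⁻¹ (σ x)) = σ x
        rw [unr_apply_inv]
    · intro x' hx'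
      rw [Set.Finite.mem_toFinset] at hx'
      obtain ⟨σ, hσ, rfl⟩ := hx'
      rw [map_mul, hφ j σ hσ]
      have h1 : τ (σ x) = (τ * σ) x := rfl
      rw [h1, hφ j (τ * σ) (mul_mem hτ hσ)]
      rfl
  · -- integrality
    intro hxA j
    rw [hy]
    refine sum_mem fun x' hx' => ?_
    rw [Set.Finite.mem_toFinset] at hx'
    obtain ⟨σ, hσ, rfl⟩ := hx'
    rw [hφ j σ hσ]
    exact A.mul_mem _ _ (Fermat.Agent.H8.apply_mem_of_mem_decomposition A hσ (hθA j).1)
      (Fermat.Agent.H8.apply_mem_of_mem_decomposition A hσ hxA)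
  · -- nonunits
    intro hxA j
    rw [hy]
    refine unr_nonunits_sum _ _ fun x' hx' => ?_
    rw [Set.Finite.mem_toFinset] at hx'
    obtain ⟨σ, hσ, rfl⟩ := hx'
    rw [hφ j σ hσ]
    exact unr_nonunits_mul_left (Fermat.Agent.H8.apply_mem_of_mem_decomposition A hσ (hθA j).1)
      (unr_apply_mem_nonunits hσ hxA)
  · -- the sum formula
    have h1 : ∀ j, θ' j * y j = ∑ x' ∈ hOfin.toFinset, θ' j * φ j x' * x' := by
      intro j
      rw [hy, Finset.mul_sum]
      exact Finset.sum_congr rfl fun x' _ => (mul_assoc _ _ _).symm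
    rw [Finset.sum_congr rfl fun j _ => h1 j, Finset.sum_comm]
    have h2 : ∀ x' ∈ hOfin.toFinset,
        ∑ j, θ' j * φ j x' * x' = if x' = x then x else 0 := by
      intro x' hx'
      rw [Set.Finite.mem_toFinset] at hx'
      obtain ⟨σ, hσ, rfl⟩ := hx'
      rw [← Finset.sum_mul]
      have h3 : ∑ j, θ' j * φ j (σ x) = ∑ j, θ' j * σ (θ j) :=
        Finset.sum_congr rfl fun j _ => by rw [hφ j σ hσ]
      rw [h3, hsum σ hσ]
      by_cases hσS : σ ∈ S
      · rw [if_pos hσS, if_pos hσS.2, one_mul, hσS.2]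
      · have hne : σ x ≠ x := fun h => hσS ⟨hσ, h⟩
        rw [if_neg hσS, if_neg hne, zero_mul]
    rw [Finset.sum_congr rfl h2, Finset.sum_ite_eq' hOfin.toFinset x, if_pos]
    rw [Set.Finite.mem_toFinset]
    exact ⟨1, one_mem _, rfl⟩

end Trace

section Unif

variable {ℓ : ℕ} [hℓ : Fact ℓ.Prime] {A : ValuationSubring Qb}

/-- A rational number in the maximal ideal of `A` is `ℓ` times an element of `A`. -/
theorem unr_rat_div_mem (hA : A.LiesOverPrime ℓ) (q : ℚ)
    (hq : algebraMap ℚ Qb q ∈ A.nonunits) : ∃ a ∈ A, algebraMap ℚ Qb q = (ℓ : Qb) * a := by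
  have hℓ0 : (ℓ : Qb) ≠ 0 := ffd_ell_ne_zero
  by_cases h : q / ℓ ∈ GaloisRep.ratLocalizedAt ℓ
  · refine ⟨algebraMap ℚ Qb (q / ℓ), ffd_zl_mem hA _ h, ?_⟩
    rw [map_div₀, map_natCast, mul_div_cancel₀ _ hℓ0]
  · exfalso
    obtain ⟨a, ha, hqa⟩ := ffd_rat_inv hA (q / ℓ) h
    rw [map_div₀, map_natCast, inv_div] at hqa
    rw [ValuationSubring.mem_nonunits_iff_or] at hq
    rcases hq with hq | hq
    · rw [hq, div_zero] at hqa
      have h1 : (ℓ : Qb) * a = 0 := hqa.symm
      rcases mul_eq_zero.1 h1 with h2 | h2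
      · exact hℓ0 h2
      · apply h
        have h3 : q = 0 := (map_eq_zero (algebraMap ℚ Qb)).1 hq
        rw [h3, zero_div]
        exact Subring.zero_mem _
    · apply hq
      have h1 : (algebraMap ℚ Qb q)⁻¹ = a := by
        have h2 : (ℓ : Qb) * (algebraMap ℚ Qb q)⁻¹ = (ℓ : Qb) * a := by
          rw [← hqa, div_eq_mul_inv]
        exact mul_left_cancel₀ hℓ0 h2
      rw [h1]
      exact ha

/-- **(U1)** A nonunit of `A` in `unrInt A` is `ℓ` times an element of `unrInt A`: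
`ℓ` is a uniformiser of the unramified integers. -/
theorem unrInt_dvd_of_nonunit (hP : PlaceFacts ℓ A) {x : Qb} (hx : x ∈ unrInt A)
    (hxn : x ∈ A.nonunits) : ∃ a ∈ unrInt A, x = (ℓ : Qb) * a := by
  have hℓ0 : (ℓ : Qb) ≠ 0 := ffd_ell_ne_zero
  obtain ⟨m, c, y, hc, hyD, -, hyn, hxy⟩ := unr_trace_trick hP.unrBasis x hx.2
  have key : ∀ j, ∃ b ∈ A, y j = (ℓ : Qb) * b := by
    intro j
    obtain ⟨q, a, ha, hqa⟩ := hP.dense (y j) (hyD j) 1
    rw [pow_one] at hqa
    have hq : algebraMap ℚ Qb q ∈ A.nonunits := by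
      have h1 : algebraMap ℚ Qb q = y j - a * (ℓ : Qb) := by
        rw [mul_comm, ← hqa]
        ring
      rw [h1]
      exact unr_nonunits_sub (hyn hxn j) (unr_nonunits_mul_left ha hP.liesOver)
    obtain ⟨b, hb, hqb⟩ := unr_rat_div_mem hP.liesOver q hq
    refine ⟨b + a, A.add_mem _ _ hb ha, ?_⟩
    rw [mul_add, ← hqb, ← hqa]
    ring
  choose b hb hyb using key
  have hsum : x * (ℓ : Qb)⁻¹ = ∑ j, c j * b j := by
    rw [hxy, Finset.sum_mul]
    refine Finset.sum_congr rfl fun j _ => ?_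
    rw [hyb j]
    field_simp
  refine ⟨x * (ℓ : Qb)⁻¹, ⟨?_, ?_⟩, ?_⟩
  · rw [hsum]
    exact sum_mem fun j _ => A.mul_mem _ _ (hc j) (hb j)
  · intro σ hσ
    rw [map_mul, map_inv₀, map_natCast, hx.2 σ hσ]
  · field_simp

/-- The inverse of a unit of `A` in `unrInt A` lies in `unrInt A`. -/
theorem unrInt_inv_mem {x : Qb} (hx : x ∈ unrInt A) (hxn : x ∉ A.nonunits) :
    x⁻¹ ∈ unrInt A := by
  rw [ValuationSubring.mem_nonunits_iff_or, not_or, not_not] at hxn
  refine ⟨hxn.2, fun σ hσ => ?_⟩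
  rw [map_inv₀, hx.2 σ hσ]

theorem unrInt_isUnit_of_not_nonunit (r : unrInt A) (h : (r : Qb) ∉ A.nonunits) : IsUnit r := by
  have h0 : (r : Qb) ≠ 0 := by
    rw [ValuationSubring.mem_nonunits_iff_or, not_or] at h
    exact h.1
  refine IsUnit.of_mul_eq_one (⟨(r : Qb)⁻¹, unrInt_inv_mem r.2 h⟩ : unrInt A) ?_
  exact Subtype.ext (mul_inv_cancel₀ h0)

theorem unrInt_not_nonunit_of_isUnit (r : unrInt A) (h : IsUnit r) : (r : Qb) ∉ A.nonunits := by
  obtain ⟨s, hs⟩ := h.exists_right_inv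
  have h1 : (r : Qb) * (s : Qb) = 1 := congrArg Subtype.val hs
  intro hn
  have h2 : (1 : Qb) ∈ A.nonunits := by
    rw [← h1, mul_comm]
    exact unr_nonunits_mul_left s.2.1 hn
  rw [ValuationSubring.mem_nonunits_iff, map_one] at h2
  exact lt_irrefl _ h2

theorem unrInt_isUnit_iff (r : unrInt A) : IsUnit r ↔ (r : Qb) ∉ A.nonunits :=
  ⟨unrInt_not_nonunit_of_isUnit r, unrInt_isUnit_of_not_nonunit r⟩

theorem unrInt_natCast_coe (n : ℕ) : (((n : ℕ) : unrInt A) : Qb) = (n : Qb) := rfl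

/-- Every unramified integer is a unit or divisible by `ℓ`. -/
theorem unrInt_isUnit_or_dvd (hP : PlaceFacts ℓ A) (r : unrInt A) :
    IsUnit r ∨ ((ℓ : ℕ) : unrInt A) ∣ r := by
  by_cases h : (r : Qb) ∈ A.nonunits
  · right
    obtain ⟨a, ha, hra⟩ := unrInt_dvd_of_nonunit hP r.2 h
    exact ⟨⟨a, ha⟩, Subtype.ext hra⟩
  · exact Or.inl (unrInt_isUnit_of_not_nonunit r h)

/-- **(U2)** `⋂ ℓⁿ R = 0`. -/
theorem unrInt_eq_zero_of_forall_dvd (hA : A.LiesOverPrime ℓ) (r : unrInt A)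
    (h : ∀ n : ℕ, ((ℓ : ℕ) : unrInt A) ^ n ∣ r) : r = 0 := by
  by_contra hr
  have hr' : (r : Qb) ≠ 0 := fun h0 => hr (Subtype.ext h0)
  obtain ⟨N, hN⟩ := ffd_exists_not_dvd hA (r : Qb) hr'
  apply hN
  obtain ⟨c, hc⟩ := h N
  refine ⟨(c : Qb), c.2.1, ?_⟩
  rw [hc]
  rfl

theorem unrInt_natCast_ne_zero : ((ℓ : ℕ) : unrInt A) ≠ 0 := by
  intro h
  have h1 : (ℓ : Qb) = 0 := congrArg Subtype.val h
  exact ffd_ell_ne_zero h1

theorem unrInt_natCast_not_isUnit (hA : A.LiesOverPrime ℓ) : ¬ IsUnit ((ℓ : ℕ) : unrInt A) :=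
  fun h => unrInt_not_nonunit_of_isUnit _ h hA

/-- `ℓ` is irreducible in the unramified integers. -/
theorem unrInt_irreducible (hP : PlaceFacts ℓ A) : Irreducible ((ℓ : ℕ) : unrInt A) := by
  refine ⟨unrInt_natCast_not_isUnit hP.liesOver, fun a b hab => ?_⟩
  by_contra hcon
  rw [not_or] at hcon
  obtain ⟨a', ha'⟩ := (unrInt_isUnit_or_dvd hP a).resolve_left hcon.1
  obtain ⟨b', hb'⟩ := (unrInt_isUnit_or_dvd hP b).resolve_left hcon.2
  have h1 : ((ℓ : ℕ) : unrInt A) * 1 = ((ℓ : ℕ) : unrInt A) * (((ℓ : ℕ) : unrInt A) * (a' * b')) := by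
    rw [mul_one]
    conv_lhs => rw [hab, ha', hb']
    ring
  have h2 := mul_left_cancel₀ unrInt_natCast_ne_zero h1
  exact unrInt_natCast_not_isUnit hP.liesOver (IsUnit.of_mul_eq_one _ h2.symm)

/-- The unramified integers have the unit-times-power-of-`ℓ` factorisation. -/
theorem unrInt_associated_pow (hP : PlaceFacts ℓ A) {x : unrInt A} (hx : x ≠ 0) :
    ∃ n : ℕ, Associated (((ℓ : ℕ) : unrInt A) ^ n) x := by
  classical
  have hex : ∃ n : ℕ, ¬ ((ℓ : ℕ) : unrInt A) ^ n ∣ x := by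
    by_contra hcon
    push Not at hcon
    exact hx (unrInt_eq_zero_of_forall_dvd hP.liesOver x hcon)
  have hfind := Nat.find_spec hex
  have hmin := fun k => Nat.find_min hex (m := k)
  set n := Nat.find hex with hn
  have hn0 : n ≠ 0 := by
    intro h0
    rw [h0, pow_zero] at hfind
    exact hfind (one_dvd x)
  obtain ⟨k, hk⟩ := Nat.exists_eq_succ_of_ne_zero hn0
  have hdvd : ((ℓ : ℕ) : unrInt A) ^ k ∣ x := by
    by_contra h
    exact hmin k (by rw [hk]; exact Nat.lt_succ_self k) h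
  obtain ⟨u, hu⟩ := hdvd
  refine ⟨k, ?_⟩
  have huu : IsUnit u := by
    refine (unrInt_isUnit_or_dvd hP u).resolve_right fun hd => ?_
    apply hfind
    obtain ⟨v, hv⟩ := hd
    rw [hk]
    exact ⟨v, by rw [hu, hv, pow_succ, mul_assoc]⟩
  obtain ⟨u', hu'⟩ := huu
  exact ⟨u', by rw [hu, hu']⟩

/-- **The unramified integers form a discrete valuation ring** (with uniformiser `ℓ`,
`unrInt_irreducible`). -/
theorem unrInt_isDiscreteValuationRing (hP : PlaceFacts ℓ A) :
    IsDiscreteValuationRing (unrInt A) :=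
  IsDiscreteValuationRing.ofHasUnitMulPowIrreducibleFactorization
    ⟨((ℓ : ℕ) : unrInt A), unrInt_irreducible hP, fun hx => unrInt_associated_pow hP hx⟩

end Unif

end Fermat.Agent.H53

end
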