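/-
helper53 (P-ORD, block B1-LIFT, concrete input [DISC] of findings #553): the inertia field at a
place `A` of `ℚ̄` over `p` is discretely valued with uniformiser `p`:

  `unrDisc p A hA : Fermat.Agent.H18.ORD.UnrDisc p A`   (UNCONDITIONAL).

Also `placeFacts_of_liesOver : PlaceFacts ℓ A` without importing the P-FF assembly, and the
unconditional forms of the facts of `UnrUniformizer.lean` / `UnrHopf.lean`.
-/
import Fermat.Agent.H53.ORD.UnrUniformizer
import Fermat.Agent.H18.ORD.NodalGlued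
import Fermat.Agent.H95.FF.PlaceDense
import Fermat.Agent.H65.FF.PlaceUnrBasis

set_option autoImplicit false
set_option linter.unusedVariables false
set_option linter.unusedSectionVars false
set_option linter.style.haveILetI false

noncomputable section

namespace Fermat.Agent.H53

open Fermat.Agent.H10.FF Fermat.Agent.H72.FF Fermat.Agent.H68.FFD

variable {ℓ : ℕ} [hℓ : Fact ℓ.Prime] {A : ValuationSubring Qb}

/-- The place facts hold at every place over `ℓ` (helper95 `placeDense`, helper65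
`placeUnrBasis`). -/
theorem placeFacts_of_liesOver (hA : A.LiesOverPrime ℓ) : PlaceFacts ℓ A :=
  ⟨hA, Fermat.Agent.H95.FF.placeDense ℓ A hA, Fermat.Agent.H65.placeUnrBasis ℓ A hA⟩

/-- `ℓ` is a uniformiser of the unramified integers, unconditionally. -/
theorem unrInt_dvd_of_nonunit' (hA : A.LiesOverPrime ℓ) {x : Qb} (hx : x ∈ unrInt A)
    (hxn : x ∈ A.nonunits) : ∃ a ∈ unrInt A, x = (ℓ : Qb) * a :=
  unrInt_dvd_of_nonunit (placeFacts_of_liesOver hA) hx hxn

/-- The unramified integers form a discrete valuation ring, unconditionally. -/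
theorem unrInt_isDiscreteValuationRing' (hA : A.LiesOverPrime ℓ) :
    IsDiscreteValuationRing (unrInt A) :=
  unrInt_isDiscreteValuationRing (placeFacts_of_liesOver hA)

/-- `ℓ` is irreducible in the unramified integers, unconditionally. -/
theorem unrInt_irreducible' (hA : A.LiesOverPrime ℓ) : Irreducible ((ℓ : ℕ) : unrInt A) :=
  unrInt_irreducible (placeFacts_of_liesOver hA)

/-- Every nonzero inertia-fixed number is a power of `ℓ` times a unit of `A`. -/
theorem unr_exists_zpow_mul_unit (hA : A.LiesOverPrime ℓ) (c : Qb) (hc : c ≠ 0)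
    (hfix : ∀ σ ∈ A.inertiaSubgroupIn ℚ, σ c = c) :
    ∃ n : ℤ, c * (ℓ : Qb) ^ n ∈ A ∧ (c * (ℓ : Qb) ^ n)⁻¹ ∈ A := by
  have hℓ0 : (ℓ : Qb) ≠ 0 := ffd_ell_ne_zero
  have hP := placeFacts_of_liesOver hA
  obtain ⟨M, hM⟩ := ffd_clear_denoms hA c
  -- `x = ℓ ^ M * c` is a nonzero unramified integer
  have hxR : (ℓ : Qb) ^ M * c ∈ unrInt A := by
    refine ⟨hM, fun σ hσ => ?_⟩
    rw [map_mul, map_pow, map_natCast, hfix σ hσ]
  have hx0 : (⟨(ℓ : Qb) ^ M * c, hxR⟩ : unrInt A) ≠ 0 := by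
    intro h
    have h1 : (ℓ : Qb) ^ M * c = 0 := congrArg Subtype.val h
    rcases mul_eq_zero.1 h1 with h2 | h2
    · exact pow_ne_zero M hℓ0 h2
    · exact hc h2
  obtain ⟨k, u, hu⟩ := unrInt_associated_pow hP hx0
  -- `ℓ ^ k * u = ℓ ^ M * c`
  have hu' : (ℓ : Qb) ^ k * ((u : unrInt A) : Qb) = (ℓ : Qb) ^ M * c := by
    have := congrArg Subtype.val hu
    exact this
  have huA : ((u : unrInt A) : Qb) ∈ A := (u : unrInt A).2.1
  have huinv : (((u⁻¹ : (unrInt A)ˣ) : unrInt A) : Qb) ∈ A := ((u⁻¹ : (unrInt A)ˣ) : unrInt A).2.1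
  have hmul : ((u : unrInt A) : Qb) * (((u⁻¹ : (unrInt A)ˣ) : unrInt A) : Qb) = 1 := by
    have h1 : (u : unrInt A) * ((u⁻¹ : (unrInt A)ˣ) : unrInt A) = 1 := u.mul_inv
    exact congrArg Subtype.val h1
  have hu0 : ((u : unrInt A) : Qb) ≠ 0 := left_ne_zero_of_mul_eq_one hmul
  have hinv : (((u : unrInt A) : Qb))⁻¹ = (((u⁻¹ : (unrInt A)ˣ) : unrInt A) : Qb) :=
    inv_eq_of_mul_eq_one_right hmul
  refine ⟨(M : ℤ) - (k : ℤ), ?_, ?_⟩
  · have key : c * (ℓ : Qb) ^ ((M : ℤ) - (k : ℤ)) = ((u : unrInt A) : Qb) := by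
      rw [zpow_sub₀ hℓ0, zpow_natCast, zpow_natCast]
      field_simp
      rw [mul_comm c, ← hu']
    rw [key]
    exact huA
  · have key : c * (ℓ : Qb) ^ ((M : ℤ) - (k : ℤ)) = ((u : unrInt A) : Qb) := by
      rw [zpow_sub₀ hℓ0, zpow_natCast, zpow_natCast]
      field_simp
      rw [mul_comm c, ← hu']
    rw [key, hinv]
    exact huinv

/-- **[DISC]** (findings #553): the inertia field is discretely valued with uniformiser `p`. -/
theorem unrDisc (p : ℕ) [Fact p.Prime] (A : ValuationSubring Qb) (hA : A.LiesOverPrime p) :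
    Fermat.Agent.H18.ORD.UnrDisc p A :=
  fun c hc hfix => unr_exists_zpow_mul_unit hA c hc hfix

end Fermat.Agent.H53

end
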