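/-
helper53 (P-ORD, B1-LIFT input [DISC], exact shape asked for by helper18):
`unrDisc_of_liesOver p A hp hA : Fermat.Agent.H18.ORD.UnrDisc p A`.
-/
import Fermat.Agent.H53.ORD.UnrDisc

set_option autoImplicit false

namespace Fermat.Agent.H53

open Fermat.Agent.H72.FF

/-- **[DISC]**: the inertia field at a place over `p` is discretely valued with uniformiser
`p`. -/
theorem unrDisc_of_liesOver (p : ℕ) (A : ValuationSubring Qb) (hp : p.Prime)
    (hA : A.LiesOverPrime p) : Fermat.Agent.H18.ORD.UnrDisc p A :=
  haveI : Fact p.Prime := ⟨hp⟩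
  unrDisc p A hA

end Fermat.Agent.H53
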