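/-
helper53 (P-ORD, blueprint #489 (3)(b)): the Hopf lemma in the P-FF language.

* `hopf_exists_unit_of_order` (Mathlib only): the Hopf lemma of `HopfLemma.lean` for an arbitrary
  commutative group `Z`, applied to the `p`-torsion subgroup: if a comultiplication-closed
  algebra `H` of functions separates a point `z₀` of order `p` from `0` then some `h ∈ H` and
  some `z` with `p z = 0` have `h z - h 0` a unit;
* `unrHopf_exists_unit` : for an unramified Hopf order `Hu` (`IsUnrHopfOrder A act Hu`) on a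
  group `Z` on which the inertia group acts trivially, `ℓ` odd, and a nonzero point `z₀` killed
  by `ℓ`: some `h ∈ Hu` and `z` with `ℓ z = 0` have `h z - h 0` a unit of `A`;
* `unrHopf_eq_zero_of_connected` : a CONNECTED unramified Hopf order (all functions constant
  modulo the maximal ideal) on a group with trivial inertia action has no nonzero
  `ℓ`-power torsion point: "the kernel of reduction has no unramified subquotient".
-/
import Fermat.Agent.H53.ORD.UnrUniformizer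

set_option autoImplicit false
set_option linter.unusedVariables false
set_option linter.unusedSectionVars false
set_option linter.style.haveILetI false

noncomputable section

namespace Fermat.Agent.H53

open Fermat.Agent.H10.FF Fermat.Agent.H72.FF Fermat.Agent.H68.FFD

section Abstract

variable {R : Type*} [CommRing R] {Z : Type*} [AddCommGroup Z] {p : ℕ}

/-- Restriction of functions to a subgroup. -/
def hopfRestrict (R : Type*) [CommRing R] {Z : Type*} [AddCommGroup Z] (Z' : AddSubgroup Z) :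
    (Z → R) →ₐ[R] (Z' → R) :=
  AlgHom.pi (fun z' : Z' => Pi.evalAlgHom R (fun _ : Z => R) (z' : Z))

theorem hopfRestrict_apply (Z' : AddSubgroup Z) (f : Z → R) (z' : Z') :
    hopfRestrict R Z' f z' = f z' := rfl

/-- The restriction of a comultiplication-closed algebra to a subgroup is
comultiplication-closed. -/
theorem ComulClosed.restrict {H : Subalgebra R (Z → R)} (hH : ComulClosed H)
    (Z' : AddSubgroup Z) : ComulClosed (H.map (hopfRestrict R Z')) := by
  rintro _ ⟨h, hh, rfl⟩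
  obtain ⟨n, a, b, ha, hb, hab⟩ := hH h hh
  exact ⟨n, fun i => hopfRestrict R Z' (a i), fun i => hopfRestrict R Z' (b i),
    fun i => ⟨a i, ha i, rfl⟩, fun i => ⟨b i, hb i, rfl⟩, fun z z' => hab z z'⟩

/-- **HOPF LEMMA, general group.** -/
theorem hopf_exists_unit_of_order [IsDomain R] (hp : p.Prime) (hp2 : p ≠ 2) (hp0 : (p : R) ≠ 0)
    (hloc : ∀ r : R, IsUnit r ∨ (p : R) ∣ r)
    (hsep : ∀ r : R, (∀ n : ℕ, (p : R) ^ n ∣ r) → r = 0)
    (H : Subalgebra R (Z → R)) (hH : ComulClosed H) (z₀ : Z) (hz₀ : p • z₀ = 0)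
    (hne : ∃ h ∈ H, h z₀ ≠ h 0) :
    ∃ h ∈ H, ∃ z : Z, p • z = 0 ∧ IsUnit (h z - h 0) := by
  let Z' : AddSubgroup Z := (nsmulAddMonoidHom p : Z →+ Z).ker
  have hZ'mem : ∀ z : Z, z ∈ Z' ↔ p • z = 0 := fun z => Iff.rfl
  have hZ : ∀ z : Z', p • z = 0 := fun z => Subtype.ext ((hZ'mem z).1 z.2)
  obtain ⟨h₀, hh₀, hne₀⟩ := hne
  have hne' : ∃ h ∈ H.map (hopfRestrict R Z'), ∃ z : Z', h z ≠ h 0 :=
    ⟨hopfRestrict R Z' h₀, ⟨h₀, hh₀, rfl⟩, ⟨z₀, (hZ'mem z₀).2 hz₀⟩, hne₀⟩
  obtain ⟨_, ⟨h, hh, rfl⟩, z, hu⟩ :=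
    hopf_exists_unit hp hp2 hp0 hloc hsep hZ (H.map (hopfRestrict R Z')) (hH.restrict Z') hne'
  exact ⟨h, hh, (z : Z), (hZ'mem z).1 z.2, hu⟩

end Abstract

section Unr

variable {ℓ : ℕ} [hℓ : Fact ℓ.Prime] {A : ValuationSubring Qb} {Z : Type} [AddCommGroup Z]
  {act : GQ → Z → Z} {Hu : Subring (Z → Qb)}

/-- If inertia acts trivially on `Z`, the functions of an unramified Hopf order have values in
the unramified integers. -/
theorem unrHopf_value_mem (hHu : IsUnrHopfOrder A act Hu)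
    (htriv : ∀ σ ∈ A.inertiaSubgroupIn ℚ, ∀ z : Z, act σ z = z) {h : Z → Qb} (hh : h ∈ Hu)
    (z : Z) : h z ∈ unrInt A :=
  ⟨hHu.integral h hh z, fun σ hσ => by
    rw [← hHu.inertia_equiv h hh σ hσ z, htriv σ hσ z]⟩

/-- The algebra over the unramified integers attached to an unramified Hopf order. -/
def unrHopfAlg (hHu : IsUnrHopfOrder A act Hu) : Subalgebra (unrInt A) (Z → unrInt A) where
  carrier := {f | (fun z => ((f z : unrInt A) : Qb)) ∈ Hu}
  mul_mem' := fun {f g} hf hg => Hu.mul_mem hf hg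
  one_mem' := Hu.one_mem
  add_mem' := fun {f g} hf hg => Hu.add_mem hf hg
  zero_mem' := Hu.zero_mem
  algebraMap_mem' := fun r => hHu.const_mem (r : Qb) r.2

theorem mem_unrHopfAlg (hHu : IsUnrHopfOrder A act Hu) (f : Z → unrInt A) :
    f ∈ unrHopfAlg hHu ↔ (fun z => ((f z : unrInt A) : Qb)) ∈ Hu := Iff.rfl

theorem unrHopfAlg_comulClosed (hHu : IsUnrHopfOrder A act Hu)
    (htriv : ∀ σ ∈ A.inertiaSubgroupIn ℚ, ∀ z : Z, act σ z = z) :
    ComulClosed (unrHopfAlg hHu) := by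
  intro f hf
  obtain ⟨n, a, b, ha, hb, hab⟩ := hHu.comul_mem _ hf
  refine ⟨n, fun i z => ⟨a i z, unrHopf_value_mem hHu htriv (ha i) z⟩,
    fun i z => ⟨b i z, unrHopf_value_mem hHu htriv (hb i) z⟩, fun i => ha i, fun i => hb i,
    fun z z' => ?_⟩
  apply Subtype.ext
  refine (hab z z').trans ?_
  have h2 := map_sum (unrInt A).subtype
    (fun i => (⟨a i z, unrHopf_value_mem hHu htriv (ha i) z⟩ : unrInt A) *
      (⟨b i z', unrHopf_value_mem hHu htriv (hb i) z'⟩ : unrInt A)) Finset.univ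
  exact h2.symm

/-- **HOPF LEMMA for unramified Hopf orders.**  If the inertia group acts trivially on `Z`,
`ℓ` is odd and `z₀ ≠ 0` is killed by `ℓ`, then some function of the order is not constant
modulo the maximal ideal on the `ℓ`-torsion. -/
theorem unrHopf_exists_unit (hP : PlaceFacts ℓ A) (hℓ2 : ℓ ≠ 2)
    (hHu : IsUnrHopfOrder A act Hu)
    (htriv : ∀ σ ∈ A.inertiaSubgroupIn ℚ, ∀ z : Z, act σ z = z)
    (z₀ : Z) (hz₀ : ℓ • z₀ = 0) (hz₀' : z₀ ≠ 0) :
    ∃ h ∈ Hu, ∃ z : Z, ℓ • z = 0 ∧ h z - h 0 ∉ A.nonunits := by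
  obtain ⟨h₀, hh₀, hne₀⟩ := hHu.separates z₀ 0 hz₀'
  let f₀ : Z → unrInt A := fun z => ⟨h₀ z, unrHopf_value_mem hHu htriv hh₀ z⟩
  have hf₀ : f₀ ∈ unrHopfAlg hHu := hh₀
  have hne : ∃ f ∈ unrHopfAlg hHu, f z₀ ≠ f 0 :=
    ⟨f₀, hf₀, fun h => hne₀ (congrArg Subtype.val h)⟩
  obtain ⟨f, hf, z, hz, hu⟩ := hopf_exists_unit_of_order (R := unrInt A) hℓ.out hℓ2
    unrInt_natCast_ne_zero (unrInt_isUnit_or_dvd hP)
    (unrInt_eq_zero_of_forall_dvd hP.liesOver) (unrHopfAlg hHu)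
    (unrHopfAlg_comulClosed hHu htriv) z₀ hz₀ hne
  exact ⟨_, hf, z, hz, unrInt_not_nonunit_of_isUnit _ hu⟩

/-- **No unramified subquotient in the kernel of reduction.**  A connected unramified Hopf
order (all functions constant modulo the maximal ideal of `A`) on a group with trivial inertia
action has no nonzero `ℓ`-power torsion (`ℓ` odd). -/
theorem unrHopf_eq_zero_of_connected (hP : PlaceFacts ℓ A) (hℓ2 : ℓ ≠ 2)
    (hHu : IsUnrHopfOrder A act Hu)
    (htriv : ∀ σ ∈ A.inertiaSubgroupIn ℚ, ∀ z : Z, act σ z = z)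
    (hconn : ∀ h ∈ Hu, ∀ z : Z, h z - h 0 ∈ A.nonunits)
    (z : Z) (n : ℕ) (hz : ℓ ^ n • z = 0) : z = 0 := by
  classical
  by_contra hz0
  have hex : ∃ k : ℕ, ℓ ^ k • z = 0 := ⟨n, hz⟩
  have hfind := Nat.find_spec hex
  have hmin := fun k => Nat.find_min hex (m := k)
  set k := Nat.find hex with hk
  have hk0 : k ≠ 0 := by
    intro h0
    rw [h0, pow_zero, one_smul] at hfind
    exact hz0 hfind
  obtain ⟨j, hj⟩ := Nat.exists_eq_succ_of_ne_zero hk0
  have hj' : ℓ ^ j • z ≠ 0 := hmin j (by rw [hj]; exact Nat.lt_succ_self j)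
  have hj'' : ℓ • (ℓ ^ j • z) = 0 := by
    rw [← mul_smul, ← pow_succ', ← Nat.succ_eq_add_one, ← hj]
    exact hfind
  obtain ⟨h, hh, w, -, hw⟩ := unrHopf_exists_unit hP hℓ2 hHu htriv _ hj'' hj'
  exact hw (hconn h hh w)

/-- Variant: a connected unramified Hopf order on a finite `ℓ`-group with trivial inertia
action lives on the trivial group. -/
theorem unrHopf_subsingleton_of_connected (hP : PlaceFacts ℓ A) (hℓ2 : ℓ ≠ 2)
    (hHu : IsUnrHopfOrder A act Hu)
    (htriv : ∀ σ ∈ A.inertiaSubgroupIn ℚ, ∀ z : Z, act σ z = z)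
    (hconn : ∀ h ∈ Hu, ∀ z : Z, h z - h 0 ∈ A.nonunits)
    (htors : ∀ z : Z, ∃ n : ℕ, ℓ ^ n • z = 0) : Subsingleton Z :=
  ⟨fun z z' => by
    obtain ⟨n, hn⟩ := htors z
    obtain ⟨n', hn'⟩ := htors z'
    rw [unrHopf_eq_zero_of_connected hP hℓ2 hHu htriv hconn z n hn,
      unrHopf_eq_zero_of_connected hP hℓ2 hHu htriv hconn z' n' hn']⟩

end Unr

end Fermat.Agent.H53

end
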